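import Mathlib
import Fermat.Agent.Lib.DedekindWeber

/-!
# Integral bases for the Dedekind–Weber package (S18 G4, part 2)

Mathlib-only.  For a PID `A` with fraction field `K` and a finite separable extension `L / K`,
the integral closure of `A` in `L` is spanned by a `K`-basis of `L`
(`exists_integral_basis`).
-/

set_option autoImplicit false

namespace Fermat.Agent.Lib.DedekindWeber

open WithZero Matrix nonZeroDivisors

section IntegralBasis

variable (A K L : Type*) [CommRing A] [IsDomain A] [IsPrincipalIdealRing A] [Field K]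
  [Algebra A K] [IsFractionRing A K] [Field L] [Algebra K L] [Algebra A L] [IsScalarTower A K L]
  [FiniteDimensional K L] [Algebra.IsSeparable K L]

/-- **Integral basis.** The integral closure of a PID `A` in a finite separable extension `L` of
its fraction field `K` is the `A`-span of a `K`-basis of `L`; the discriminant of this basis is a
nonzero element of `A`. -/
theorem exists_integral_basis :
    ∃ b : Module.Basis (Fin (Module.finrank K L)) K L,
      (∀ f : L, IsIntegral A f ↔ ∀ i, b.repr f i ∈ Set.range (algebraMap A K)) ∧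
      (∀ i, IsIntegral A (b i)) ∧
      ∃ D : A, D ≠ 0 ∧ Algebra.discr K b = algebraMap A K D := by
  classical
  let C := integralClosure A L
  have hinj : Function.Injective (algebraMap A L) := by
    rw [IsScalarTower.algebraMap_eq A K L]
    exact (algebraMap K L).injective.comp (IsFractionRing.injective A K)
  have : Module.IsTorsionFree A L := by
    rw [← faithfulSMul_iff_algebraMap_injective] at hinj
    infer_instance
  have : Module.Free A C := IsIntegralClosure.module_free A K L C
  have : Module.Finite A C := IsIntegralClosure.finite A K L C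
  have hrank : Module.finrank A C = Module.finrank K L := IsIntegralClosure.rank A K L C
  have : IsLocalization (Algebra.algebraMapSubmonoid C A⁰) L :=
    IsIntegralClosure.isLocalization A K L C
  let b0 : Module.Basis (Fin (Module.finrank K L)) A C := Module.finBasisOfFinrankEq A C hrank
  let b : Module.Basis (Fin (Module.finrank K L)) K L :=
    Module.Basis.localizationLocalization K A⁰ L b0
  have hb : ∀ i, b i = algebraMap C L (b0 i) :=
    fun i => Module.Basis.localizationLocalization_apply K A⁰ L b0 i
  have hbint : ∀ i, IsIntegral A (b i) := by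
    intro i
    rw [hb i]
    exact (b0 i).2
  refine ⟨b, ?_, hbint, ?_⟩
  · intro f
    constructor
    · intro hf i
      have : f = algebraMap C L ⟨f, hf⟩ := rfl
      rw [this, Module.Basis.localizationLocalization_repr_algebraMap]
      exact ⟨_, rfl⟩
    · intro h
      choose a ha using h
      have hf : f = ∑ i, a i • b i := by
        conv_lhs => rw [← b.sum_repr f]
        apply Finset.sum_congr rfl
        intro i _
        rw [← ha i, algebraMap_smul]
      rw [hf]
      exact IsIntegral.sum _ (fun i _ => IsIntegral.smul _ (hbint i))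
  · have h1 : IsIntegral A (Algebra.discr K b) := Algebra.discr_isIntegral K hbint
    obtain ⟨D, hD⟩ := IsIntegrallyClosed.isIntegral_iff.mp h1
    refine ⟨D, ?_, hD.symm⟩
    rintro rfl
    rw [map_zero] at hD
    exact Algebra.discr_not_zero_of_basis K b hD.symm

end IntegralBasis

section ValuationPID

variable {E : Type*} [Field E]

/-- the valuation ring of a `ℤᵐ⁰`-valued valuation is a principal ideal ring -/
theorem isPrincipalIdealRing_valuationSubring (v : Valuation E ℤᵐ⁰) :
    IsPrincipalIdealRing v.valuationSubring := by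
  classical
  refine ⟨fun I => ?_⟩
  by_cases hI : I = ⊥
  · rw [hI]; exact bot_isPrincipal
  obtain ⟨x, hxI, hx0⟩ := Submodule.exists_mem_ne_zero_of_ne_bot hI
  have hval : ∀ y : v.valuationSubring, y ≠ 0 → ∃ k : ℕ, v (y : E) = exp (-(k : ℤ)) := by
    intro y hy
    have hy0 : v (y : E) ≠ 0 := by
      rw [Valuation.ne_zero_iff]
      exact fun h => hy (Subtype.ext h)
    have hle : v (y : E) ≤ 1 := (Valuation.mem_valuationSubring_iff v _).mp y.2
    refine ⟨(-log (v (y : E))).toNat, ?_⟩
    have h1 : log (v (y : E)) ≤ 0 := by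
      rw [← exp_log hy0, ← exp_zero, exp_le_exp] at hle
      exact hle
    rw [Int.toNat_of_nonneg (by omega), neg_neg, exp_log hy0]
  have hex : ∃ k : ℕ, ∃ y ∈ I, v ((y : v.valuationSubring) : E) = exp (-(k : ℤ)) := by
    obtain ⟨k, hk⟩ := hval x hx0
    exact ⟨k, x, hxI, hk⟩
  obtain ⟨x0, hx0I, hx0v⟩ := Nat.find_spec hex
  have hmin : ∀ k : ℕ, (∃ y ∈ I, v ((y : v.valuationSubring) : E) = exp (-(k : ℤ))) →
      Nat.find hex ≤ k := fun k hk => Nat.find_min' hex hk
  have hx0ne : (x0 : E) ≠ 0 := by
    intro h
    rw [h, map_zero] at hx0v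
    exact exp_ne_zero hx0v.symm
  refine ⟨⟨x0, le_antisymm ?_ ?_⟩⟩
  · intro y hy
    rw [Submodule.mem_span_singleton]
    by_cases hy0 : y = 0
    · exact ⟨0, by rw [hy0, zero_smul]⟩
    · obtain ⟨k, hk⟩ := hval y hy0
      have hmk : Nat.find hex ≤ k := hmin k ⟨y, hy, hk⟩
      have hq : (y : E) / (x0 : E) ∈ v.valuationSubring := by
        rw [Valuation.mem_valuationSubring_iff, map_div₀, hk, hx0v, ← exp_sub, ← exp_zero,
          exp_le_exp]
        omega
      refine ⟨⟨_, hq⟩, Subtype.ext ?_⟩
      change (y : E) / (x0 : E) * (x0 : E) = (y : E)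
      exact div_mul_cancel₀ _ hx0ne
  · rw [Submodule.span_singleton_le_iff_mem]
    exact hx0I

end ValuationPID

/-! ### Function fields over `κ(X)` -/

section FunctionField

open Polynomial

variable (κ : Type*) [Field κ] [DecidableEq (RatFunc κ)]
variable (L : Type*) [Field L] [Algebra (RatFunc κ) L] [Algebra κ[X] L]
  [IsScalarTower κ[X] (RatFunc κ) L] [Algebra κ L] [IsScalarTower κ (RatFunc κ) L]

/-- the valuation ring at infinity of `κ(X)` -/
noncomputable abbrev Oinf : ValuationSubring (RatFunc κ) := (RatFunc.inftyValuation κ).valuationSubring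

omit [Algebra κ[X] L] [IsScalarTower κ[X] (RatFunc κ) L] in
theorem isIntegral_Oinf_algebraMap (a : κ) : IsIntegral (Oinf κ) (algebraMap κ L a) := by
  have hmem : algebraMap κ (RatFunc κ) a ∈ Oinf κ := by
    rw [Valuation.mem_valuationSubring_iff]
    rcases eq_or_ne a 0 with rfl | ha
    · simp
    · exact (RatFunc.inftyValuation.C κ ha).le
  have : algebraMap κ L a = algebraMap (Oinf κ) L ⟨_, hmem⟩ := by
    rw [IsScalarTower.algebraMap_apply κ (RatFunc κ) L]
    rfl
  rw [this]
  exact isIntegral_algebraMap

omit [DecidableEq (RatFunc κ)] in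
theorem isIntegral_poly_algebraMap (a : κ) : IsIntegral κ[X] (algebraMap κ L a) := by
  have : algebraMap κ L a = algebraMap κ[X] L (Polynomial.C a) := by
    rw [IsScalarTower.algebraMap_apply κ (RatFunc κ) L,
      IsScalarTower.algebraMap_apply κ[X] (RatFunc κ) L, RatFunc.algebraMap_C]
    rfl
  rw [this]
  exact isIntegral_algebraMap

/-- The Riemann–Roch space `L(c · (X)_∞)` of the function field `L / κ(X)`: the elements
integral over `κ[X]` such that `X^(-c) f` is integral over the valuation ring at infinity. -/
def RRSpace (c : ℤ) : Submodule κ L where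
  carrier := {f | IsIntegral κ[X] f ∧ IsIntegral (Oinf κ) ((RatFunc.X : RatFunc κ) ^ (-c) • f)}
  add_mem' := by
    rintro f g ⟨hf1, hf2⟩ ⟨hg1, hg2⟩
    refine ⟨hf1.add hg1, ?_⟩
    rw [smul_add]
    exact hf2.add hg2
  zero_mem' := ⟨isIntegral_zero, by rw [smul_zero]; exact isIntegral_zero⟩
  smul_mem' := by
    rintro a f ⟨hf1, hf2⟩
    refine ⟨?_, ?_⟩
    · rw [Algebra.smul_def]
      exact (isIntegral_poly_algebraMap κ L a).mul hf1
    · rw [smul_comm, Algebra.smul_def]
      exact (isIntegral_Oinf_algebraMap κ L a).mul hf2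

theorem mem_RRSpace (c : ℤ) (f : L) :
    f ∈ RRSpace κ L c ↔
      IsIntegral κ[X] f ∧ IsIntegral (Oinf κ) ((RatFunc.X : RatFunc κ) ^ (-c) • f) := Iff.rfl

variable [FiniteDimensional (RatFunc κ) L] [Algebra.IsSeparable (RatFunc κ) L]

/-- **Dedekind–Weber for a function field.**  For a finite separable extension `L / κ(X)` there
are an integral basis `w0` of the integral closure of `κ[X]`, an integral basis `e` of the
integral closure of the valuation ring at infinity, and exponents `δ`, such that
`dim_κ L(c · (X)_∞) = ∑ max (0, c - δ i + 1)` for all `c`, and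
`2 ∑ δ = deg disc (w0) + ord_∞ disc (e)`. -/
theorem exists_exponents_functionField :
    ∃ (δ : Fin (Module.finrank (RatFunc κ) L) → ℤ)
      (w0 e : Module.Basis (Fin (Module.finrank (RatFunc κ) L)) (RatFunc κ) L) (D : κ[X]),
      (∀ f : L, IsIntegral κ[X] f ↔
        ∀ i, w0.repr f i ∈ Set.range (algebraMap κ[X] (RatFunc κ))) ∧
      (∀ f : L, IsIntegral (Oinf κ) f ↔ ∀ i, RatFunc.inftyValuation κ (e.repr f i) ≤ 1) ∧
      D ≠ 0 ∧ Algebra.discr (RatFunc κ) w0 = algebraMap κ[X] (RatFunc κ) D ∧
      (∀ c : ℤ, Module.Finite κ (RRSpace κ L c) ∧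
        Module.finrank κ (RRSpace κ L c) = ∑ i, (c - δ i + 1).toNat) ∧
      RatFunc.inftyValuation κ (Algebra.discr (RatFunc κ) e) * exp (2 * ∑ i, δ i)
        = exp (D.natDegree : ℤ) := by
  classical
  obtain ⟨w0, hw0, -, D, hD0, hD⟩ := exists_integral_basis κ[X] (RatFunc κ) L
  have hpid : IsPrincipalIdealRing (Oinf κ) :=
    isPrincipalIdealRing_valuationSubring (RatFunc.inftyValuation κ)
  obtain ⟨e, he, -, -⟩ := exists_integral_basis (Oinf κ) (RatFunc κ) L
  have he' : ∀ f : L, IsIntegral (Oinf κ) f ↔
      ∀ i, RatFunc.inftyValuation κ (e.repr f i) ≤ 1 := by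
    intro f
    rw [he f]
    apply forall_congr'
    intro i
    constructor
    · rintro ⟨y, hy⟩
      rw [← hy]
      exact (Valuation.mem_valuationSubring_iff _ _).mp y.2
    · intro h
      exact ⟨⟨_, (Valuation.mem_valuationSubring_iff _ _).mpr h⟩, rfl⟩
  obtain ⟨δ, h1, h2⟩ := exists_exponents_discr κ w0 e D hD0 hD
  refine ⟨δ, w0, e, D, hw0, he', hD0, hD, fun c => ?_, h2⟩
  have hEq : RRSpace κ L c = LSpace κ w0 e c := by
    ext f
    rw [mem_RRSpace, mem_LSpace, hw0 f, he' _]
    apply and_congr Iff.rfl
    apply forall_congr'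
    intro i
    rw [map_smul, Finsupp.smul_apply, smul_eq_mul, map_mul, RatFunc.inftyValuation.X_zpow]
    constructor
    · intro h
      calc RatFunc.inftyValuation κ (e.repr f i)
          = exp c * (exp (-c) * RatFunc.inftyValuation κ (e.repr f i)) := by
            rw [← mul_assoc, ← exp_add]; simp
        _ ≤ exp c * 1 := by gcongr
        _ = exp c := mul_one _
    · intro h
      calc exp (-c) * RatFunc.inftyValuation κ (e.repr f i) ≤ exp (-c) * exp c := by gcongr
        _ = 1 := by rw [← exp_add]; simp
  rw [hEq]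
  exact h1 c

end FunctionField

end Fermat.Agent.Lib.DedekindWeber
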