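import Mathlib
import Fermat.Prelude.Def_AlgebraicCurve_DivisorClassGroup
import Fermat.Prelude.Def_AlgebraicCurve_Repartitions
import Fermat.Agent.Lib.FFPlaces
import Fermat.Agent.Lib.DedekindWeber
import Fermat.Agent.Lib.DedekindWeber.IntegralBasis

/-!
# The Dedekind–Weber dimension formula in the Prelude vocabulary (S18 G4-P)

For a function field `F / K` and a transcendental `x : F` with `F / K(x)` finite separable,
the Prelude Riemann–Roch spaces of the divisors `c · (x)_∞` have dimension
`∑ max (0, c - δ i + 1)` (`exists_exponents_place`).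
-/

set_option autoImplicit false

noncomputable section

namespace Fermat.Agent.Lib.DedekindWeber

open AlgebraicCurve IsDedekindDomain WithZero

section Generic

variable {K F : Type*} [Field K] [Field F] [Algebra K F]

/-- membership in the valuation ring of a place via its adic valuation -/
theorem mem_place_iff (v : Place K F) (f : F) :
    f ∈ v.toValuationSubring ↔ v.adicValuation f ≤ 1 := by
  rcases eq_or_ne f 0 with rfl | hf
  · simp [v.toValuationSubring.zero_mem]
  · rw [FFPlaces.mem_iff_ord_nonneg v hf, v.adicValuation_le_one_iff]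
    simp [hf]

theorem adicValuation_algebraMap_eq_one (v : Place K F) {a : K} (ha : a ≠ 0) :
    v.adicValuation (algebraMap K F a) = 1 := by
  have h0 : algebraMap K F a ≠ 0 := by simpa using ha
  rw [v.adicValuation_eq_exp_neg_ord h0, FFPlaces.ord_algebraMap]
  simp

/-- Let `R → F` be a ring whose integral closure in `F` is a Dedekind domain with fraction field
`F`, containing `K`.  An element of `F` is integral over `R` iff it lies in every place of `F / K`
whose valuation ring contains the image of `R`. -/
theorem isIntegral_iff_forall_place {R : Type*} [CommRing R] [Algebra R F]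
    [IsDedekindDomain (integralClosure R F)] [IsFractionRing (integralClosure R F) F]
    [Algebra K (integralClosure R F)] [IsScalarTower K (integralClosure R F) F] (g : F) :
    IsIntegral R g ↔ ∀ v : Place K F,
      (∀ r : R, algebraMap R F r ∈ v.toValuationSubring) → g ∈ v.toValuationSubring := by
  constructor
  · intro hg v hv
    obtain ⟨p, hp, hpg⟩ := hg
    let φ : R →+* v.toValuationSubring :=
      (algebraMap R F).codRestrict v.toValuationSubring.toSubring hv
    have hint : IsIntegral v.toValuationSubring g := by
      refine ⟨p.map φ, hp.map φ, ?_⟩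
      rw [Polynomial.eval₂_map]
      exact hpg
    obtain ⟨y, hy⟩ := IsIntegrallyClosed.isIntegral_iff.mp hint
    rw [← hy]
    exact y.2
  · intro h
    have hmem : g ∈ (algebraMap (integralClosure R F) F).range := by
      apply HeightOneSpectrum.mem_integers_of_valuation_le_one F g
      intro w
      have hw : ∀ r : R, algebraMap R F r ∈
          (Place.ofHeightOneSpectrum (K := K) w).toValuationSubring := by
        intro r
        show algebraMap R F r ∈ (w.valuation F).valuationSubring
        rw [Valuation.mem_valuationSubring_iff]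
        have : algebraMap R F r
            = algebraMap (integralClosure R F) F (algebraMap R (integralClosure R F) r) := rfl
        rw [this]
        exact w.valuation_le_one _
      exact (Valuation.mem_valuationSubring_iff _ _).mp (h (Place.ofHeightOneSpectrum (K := K) w) hw)
    obtain ⟨y, rfl⟩ := hmem
    exact y.2

end Generic

section Core

open Polynomial

variable (K F : Type*) [Field K] [Field F] [Algebra K F] [Algebra (RatFunc K) F] [Algebra K[X] F]
  [IsScalarTower K[X] (RatFunc K) F] [IsScalarTower K (RatFunc K) F]

/-- the image of `X` in `F` -/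
def xgen : F := algebraMap (RatFunc K) F RatFunc.X

omit [Algebra K F] [Algebra K[X] F] [IsScalarTower K[X] (RatFunc K) F]
  [IsScalarTower K (RatFunc K) F] in
theorem xgen_ne_zero : xgen K F ≠ 0 := by
  unfold xgen
  rw [Ne, map_eq_zero]
  exact RatFunc.X_ne_zero

theorem algebraMap_poly_C (a : K) : algebraMap K[X] F (Polynomial.C a) = algebraMap K F a := by
  rw [IsScalarTower.algebraMap_apply K (RatFunc K) F,
    IsScalarTower.algebraMap_apply K[X] (RatFunc K) F, RatFunc.algebraMap_C]
  rfl

omit [Algebra K F] [IsScalarTower K (RatFunc K) F] in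
theorem algebraMap_poly_X : algebraMap K[X] F Polynomial.X = xgen K F := by
  rw [IsScalarTower.algebraMap_apply K[X] (RatFunc K) F, RatFunc.algebraMap_X]
  rfl

theorem algebraMap_poly_eq_aeval (p : K[X]) :
    algebraMap K[X] F p = Polynomial.aeval (xgen K F) p := by
  induction p using Polynomial.induction_on with
  | C a => rw [algebraMap_poly_C, Polynomial.aeval_C]
  | add p q hp hq => rw [map_add, map_add, hp, hq]
  | monomial n a h =>
    have e : (Polynomial.C a * Polynomial.X ^ (n + 1) : K[X])
        = (Polynomial.C a * Polynomial.X ^ n) * Polynomial.X := by ring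
    rw [e, map_mul (algebraMap K[X] F), map_mul (Polynomial.aeval (xgen K F)), h,
      algebraMap_poly_X, Polynomial.aeval_X]

variable {K F}

theorem algebraMap_poly_mem (v : Place K F) (hx : xgen K F ∈ v.toValuationSubring) (p : K[X]) :
    algebraMap K[X] F p ∈ v.toValuationSubring := by
  induction p using Polynomial.induction_on with
  | C a => rw [algebraMap_poly_C]; exact v.algebraMap_mem' a
  | add p q hp hq => rw [map_add]; exact v.toValuationSubring.add_mem _ _ hp hq
  | monomial n a h =>
    have e : (Polynomial.C a * Polynomial.X ^ (n + 1) : K[X])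
        = (Polynomial.C a * Polynomial.X ^ n) * Polynomial.X := by ring
    rw [e, map_mul (algebraMap K[X] F), algebraMap_poly_X]
    exact v.toValuationSubring.mul_mem _ _ h hx

/-- at a pole of `x`, a polynomial of degree `d` in `x` has valuation `v(x)^d` -/
theorem adicValuation_algebraMap_poly (v : Place K F) (hx : xgen K F ∉ v.toValuationSubring)
    {p : K[X]} (hp : p ≠ 0) :
    v.adicValuation (algebraMap K[X] F p) = v.adicValuation (xgen K F) ^ p.natDegree := by
  have hx1 : 1 < v.adicValuation (xgen K F) := by
    rw [mem_place_iff] at hx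
    exact not_le.mp hx
  have hx0 : v.adicValuation (xgen K F) ≠ 0 := (zero_lt_one.trans hx1).ne'
  rw [algebraMap_poly_eq_aeval, Polynomial.aeval_eq_sum_range, Finset.sum_range_succ, add_comm]
  have htop : v.adicValuation (p.coeff p.natDegree • xgen K F ^ p.natDegree)
      = v.adicValuation (xgen K F) ^ p.natDegree := by
    have hlc : p.coeff p.natDegree ≠ 0 := Polynomial.leadingCoeff_ne_zero.mpr hp
    rw [Algebra.smul_def, map_mul, map_pow, adicValuation_algebraMap_eq_one v hlc, one_mul]
  rw [Valuation.map_add_eq_of_lt_left, htop]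
  rw [htop]
  apply Valuation.map_sum_lt _ (pow_ne_zero _ hx0)
  intro i hi
  rw [Algebra.smul_def, map_mul, map_pow]
  calc v.adicValuation (algebraMap K F (p.coeff i)) * v.adicValuation (xgen K F) ^ i
      ≤ 1 * v.adicValuation (xgen K F) ^ i :=
        mul_le_mul' (v.adicValuation_algebraMap_le_one _) le_rfl
    _ = v.adicValuation (xgen K F) ^ i := one_mul _
    _ < v.adicValuation (xgen K F) ^ p.natDegree :=
        pow_lt_pow_right₀ hx1 (Finset.mem_range.mp hi)

variable [FiniteDimensional (RatFunc K) F] [Algebra.IsSeparable (RatFunc K) F]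

/-- **(P1)** integrality over `K[X]` means regularity at all places where `x` is regular -/
theorem isIntegral_poly_iff_forall_place (f : F) :
    IsIntegral K[X] f ↔
      ∀ v : Place K F, xgen K F ∈ v.toValuationSubring → f ∈ v.toValuationSubring := by
  have : IsDedekindDomain (integralClosure K[X] F) :=
    integralClosure.isDedekindDomain K[X] (RatFunc K) F
  have : IsFractionRing (integralClosure K[X] F) F :=
    integralClosure.isFractionRing_of_finite_extension (RatFunc K) F
  let _ : Algebra K (integralClosure K[X] F) :=
    ((algebraMap K F).codRestrict (integralClosure K[X] F).toSubring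
      (fun a => isIntegral_poly_algebraMap K F a)).toAlgebra
  have : IsScalarTower K (integralClosure K[X] F) F :=
    IsScalarTower.of_algebraMap_eq (fun a => rfl)
  rw [isIntegral_iff_forall_place (K := K)]
  apply forall_congr'
  intro v
  constructor
  · intro h hx
    exact h (fun r => algebraMap_poly_mem v hx r)
  · intro h hr
    apply h
    have := hr Polynomial.X
    rwa [algebraMap_poly_X] at this

omit [FiniteDimensional (RatFunc K) F] in
/-- the valuation ring at infinity of `K(X)` lies in a place iff the place is a pole of `x` -/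
theorem Oinf_le_place_iff [DecidableEq (RatFunc K)] (v : Place K F) :
    (∀ r : Oinf K, algebraMap (Oinf K) F r ∈ v.toValuationSubring) ↔
      xgen K F ∉ v.toValuationSubring := by
  constructor
  · intro h hx
    -- then all of `K(X)` and hence all of `F` lies in the place
    have hrat : ∀ r : RatFunc K, algebraMap (RatFunc K) F r ∈ v.toValuationSubring := by
      intro r
      rcases eq_or_ne r 0 with rfl | hr
      · rw [map_zero]; exact v.toValuationSubring.zero_mem
      have hval : RatFunc.inftyValuation K r = exp r.intDegree := by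
        rw [RatFunc.inftyValuation_apply]; exact RatFunc.inftyValuation_of_nonzero K hr
      rcases le_or_gt r.intDegree 0 with hle | hgt
      · have hmem : r ∈ Oinf K := by
          rw [Valuation.mem_valuationSubring_iff, hval, ← exp_zero, exp_le_exp]
          exact hle
        exact h ⟨r, hmem⟩
      · obtain ⟨k, hk⟩ : ∃ k : ℕ, r.intDegree = (k : ℤ) := ⟨r.intDegree.toNat, by omega⟩
        have hmem : r * (RatFunc.X : RatFunc K)⁻¹ ^ k ∈ Oinf K := by
          rw [Valuation.mem_valuationSubring_iff, map_mul, map_pow, map_inv₀, hval,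
            RatFunc.inftyValuation.X, hk, ← exp_neg, ← exp_nsmul, ← exp_add]
          simp
        have hr2 : r = (r * (RatFunc.X : RatFunc K)⁻¹ ^ k) * RatFunc.X ^ k := by
          rw [mul_assoc, ← mul_pow, inv_mul_cancel₀ RatFunc.X_ne_zero, one_pow, mul_one]
        rw [hr2, map_mul, map_pow]
        exact v.toValuationSubring.mul_mem _ _ (h ⟨_, hmem⟩) (pow_mem hx k)
    apply v.ne_top'
    refine SetLike.ext fun y => ⟨fun _ => ValuationSubring.mem_top y, fun _ => ?_⟩
    obtain ⟨p, hp, hpy⟩ := Algebra.IsIntegral.isIntegral (R := RatFunc K) y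
    let φ : RatFunc K →+* v.toValuationSubring :=
      (algebraMap (RatFunc K) F).codRestrict v.toValuationSubring.toSubring hrat
    have hint : IsIntegral v.toValuationSubring y := by
      refine ⟨p.map φ, hp.map φ, ?_⟩
      rw [Polynomial.eval₂_map]
      exact hpy
    obtain ⟨z, hz⟩ := IsIntegrallyClosed.isIntegral_iff.mp hint
    rw [← hz]
    exact z.2
  · intro hx r
    have hr1 : RatFunc.inftyValuation K (r : RatFunc K) ≤ 1 :=
      (Valuation.mem_valuationSubring_iff _ _).mp r.2
    show algebraMap (RatFunc K) F (r : RatFunc K) ∈ v.toValuationSubring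
    generalize (r : RatFunc K) = h at hr1
    rcases eq_or_ne h 0 with rfl | hh
    · rw [map_zero]; exact v.toValuationSubring.zero_mem
    have hval : RatFunc.inftyValuation K h = exp h.intDegree := by
      rw [RatFunc.inftyValuation_apply]; exact RatFunc.inftyValuation_of_nonzero K hh
    have hdeg : h.num.natDegree ≤ h.denom.natDegree := by
      rw [hval, ← exp_zero, exp_le_exp, RatFunc.intDegree] at hr1
      omega
    have hN : h.num ≠ 0 := RatFunc.num_ne_zero hh
    have hD : h.denom ≠ 0 := RatFunc.denom_ne_zero h
    have hx1 : 1 < v.adicValuation (xgen K F) := by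
      rw [mem_place_iff] at hx
      exact not_le.mp hx
    have hform : algebraMap (RatFunc K) F h
        = algebraMap K[X] F h.num / algebraMap K[X] F h.denom := by
      conv_lhs => rw [← RatFunc.num_div_denom h]
      rw [map_div₀, ← IsScalarTower.algebraMap_apply, ← IsScalarTower.algebraMap_apply]
    rw [mem_place_iff, hform, map_div₀, adicValuation_algebraMap_poly v hx hN,
      adicValuation_algebraMap_poly v hx hD]
    rw [div_le_one₀ (pow_pos (zero_lt_one.trans hx1) _)]
    exact pow_le_pow_right₀ hx1.le hdeg

/-- **(P2)** integrality over the valuation ring at infinity means regularity at all poles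
of `x` -/
theorem isIntegral_Oinf_iff_forall_place [DecidableEq (RatFunc K)] (g : F) :
    IsIntegral (Oinf K) g ↔
      ∀ v : Place K F, xgen K F ∉ v.toValuationSubring → g ∈ v.toValuationSubring := by
  have hpid : IsPrincipalIdealRing (Oinf K) :=
    isPrincipalIdealRing_valuationSubring (RatFunc.inftyValuation K)
  have : IsDedekindDomain (integralClosure (Oinf K) F) :=
    integralClosure.isDedekindDomain (Oinf K) (RatFunc K) F
  have : IsFractionRing (integralClosure (Oinf K) F) F :=
    integralClosure.isFractionRing_of_finite_extension (RatFunc K) F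
  let _ : Algebra K (integralClosure (Oinf K) F) :=
    ((algebraMap K F).codRestrict (integralClosure (Oinf K) F).toSubring
      (fun a => isIntegral_Oinf_algebraMap K F a)).toAlgebra
  have : IsScalarTower K (integralClosure (Oinf K) F) F :=
    IsScalarTower.of_algebraMap_eq (fun a => rfl)
  rw [isIntegral_iff_forall_place (K := K)]
  apply forall_congr'
  intro v
  rw [Oinf_le_place_iff]

/-- the Prelude Riemann–Roch space of `c · (x)_∞` is the Dedekind–Weber space -/
theorem riemannRochSpace_eq_RRSpace [DecidableEq (RatFunc K)] (c : ℤ) (D : Divisor K F)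
    (hD : ∀ v : Place K F, D v = c * max 0 (-(v.ord (xgen K F)))) :
    riemannRochSpace D = RRSpace K F c := by
  ext f
  rw [mem_RRSpace, isIntegral_poly_iff_forall_place, isIntegral_Oinf_iff_forall_place]
  have hx0 : xgen K F ≠ 0 := xgen_ne_zero K F
  have key : ∀ v : Place K F, v.adicValuation f ≤ exp (D v) ↔
      ((xgen K F ∈ v.toValuationSubring → f ∈ v.toValuationSubring) ∧
       (xgen K F ∉ v.toValuationSubring →
          (RatFunc.X : RatFunc K) ^ (-c) • f ∈ v.toValuationSubring)) := by
    intro v
    by_cases hx : xgen K F ∈ v.toValuationSubring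
    · have hord : 0 ≤ v.ord (xgen K F) := (FFPlaces.mem_iff_ord_nonneg v hx0).mp hx
      have hDv : D v = 0 := by
        rw [hD v, max_eq_left (by omega), mul_zero]
      rw [hDv, exp_zero, ← mem_place_iff]
      constructor
      · intro h
        exact ⟨fun _ => h, fun h' => absurd hx h'⟩
      · intro h
        exact h.1 hx
    · have hord : v.ord (xgen K F) < 0 := (FFPlaces.ord_neg_iff v hx0).mpr hx
      have hDv : D v = c * (-(v.ord (xgen K F))) := by
        rw [hD v, max_eq_right (by omega)]
      have hsm : (RatFunc.X : RatFunc K) ^ (-c) • f = xgen K F ^ (-c) * f := by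
        rw [Algebra.smul_def, map_zpow₀]
        rfl
      have hvx : v.adicValuation (xgen K F ^ (-c)) = exp (c * v.ord (xgen K F)) := by
        rw [map_zpow₀, v.adicValuation_eq_exp_neg_ord hx0, ← WithZero.exp_zsmul]
        congr 1
        simp
      rw [hDv, hsm, mem_place_iff v (xgen K F ^ (-c) * f), map_mul, hvx]
      constructor
      · intro h
        refine ⟨fun h' => absurd h' hx, fun _ => ?_⟩
        calc exp (c * v.ord (xgen K F)) * v.adicValuation f
            ≤ exp (c * v.ord (xgen K F)) * exp (c * -v.ord (xgen K F)) := by gcongr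
          _ = 1 := by rw [← exp_add]; simp
      · intro h
        have h2 := h.2 hx
        calc v.adicValuation f
            = exp (c * -v.ord (xgen K F)) * (exp (c * v.ord (xgen K F)) * v.adicValuation f) := by
              rw [← mul_assoc, ← exp_add]; simp
          _ ≤ exp (c * -v.ord (xgen K F)) * 1 := by gcongr
          _ = exp (c * -v.ord (xgen K F)) := mul_one _
  constructor
  · intro h
    exact ⟨fun v => ((key v).mp (h v)).1, fun v => ((key v).mp (h v)).2⟩
  · rintro ⟨h1, h2⟩ v
    exact (key v).mpr ⟨h1 v, h2 v⟩

variable (K F) in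
/-- **Dedekind–Weber dimension formula, Prelude vocabulary (core form).** -/
theorem exists_exponents_place_core :
    ∃ δ : Fin (Module.finrank (RatFunc K) F) → ℤ, ∀ (c : ℤ) (D : Divisor K F),
      (∀ v : Place K F, D v = c * max 0 (-(v.ord (xgen K F)))) →
      Module.Finite K (riemannRochSpace D) ∧
        Module.finrank K (riemannRochSpace D) = ∑ i, (c - δ i + 1).toNat := by
  classical
  obtain ⟨δ, w0, e, D0, -, -, -, -, h, -⟩ := exists_exponents_functionField K F
  refine ⟨δ, fun c D hD => ?_⟩
  rw [riemannRochSpace_eq_RRSpace c D hD]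
  exact h c

end Core

section Wrapper

open IntermediateField Polynomial

variable {K F : Type*} [Field K] [Field F] [Algebra K F] {x : F}
  [FiniteDimensional K⟮x⟯ F] [Algebra.IsSeparable K⟮x⟯ F]

/-- **Dedekind–Weber dimension formula, Prelude vocabulary.**  For `x : F` transcendental over
`K` with `F / K(x)` finite separable there are exponents `δ i` (`i < [F : K(x)]`) such that for
every `c : ℤ` and every divisor `D` with `D v = c · max (0, -ord_v x)` (that is `D = c · (x)_∞`),
`dim_K L(D) = ∑ max (0, c - δ i + 1)`. -/
theorem exists_exponents_place (hxt : Transcendental K x) :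
    ∃ δ : Fin (Module.finrank K⟮x⟯ F) → ℤ, ∀ (c : ℤ) (D : Divisor K F),
      (∀ v : Place K F, D v = c * max 0 (-(v.ord x))) →
      Module.Finite K (riemannRochSpace D) ∧
        Module.finrank K (riemannRochSpace D) = ∑ i, (c - δ i + 1).toNat := by
  let σ : RatFunc K ≃ₐ[K] K⟮x⟯ := RatFunc.algEquivOfTranscendental x hxt
  let _ : Algebra (RatFunc K) F :=
    ((algebraMap K⟮x⟯ F).comp (σ : RatFunc K →+* K⟮x⟯)).toAlgebra
  let _ : Algebra K[X] F := (Polynomial.aeval x : K[X] →ₐ[K] F).toRingHom.toAlgebra
  have hmap : ∀ r : RatFunc K, algebraMap (RatFunc K) F r = algebraMap K⟮x⟯ F (σ r) :=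
    fun r => rfl
  have hpoly : ∀ p : K[X], algebraMap K[X] F p = Polynomial.aeval x p := fun p => rfl
  have : IsScalarTower K[X] (RatFunc K) F := IsScalarTower.of_algebraMap_eq (fun p => by
    rw [hmap, hpoly]
    change _ = algebraMap K⟮x⟯ F (RatFunc.algEquivOfTranscendental x hxt (algebraMap K[X] (RatFunc K) p))
    rw [RatFunc.algEquivOfTranscendental_algebraMap, ← Polynomial.aeval_algebraMap_apply,
      AdjoinSimple.algebraMap_gen])
  have : IsScalarTower K (RatFunc K) F := IsScalarTower.of_algebraMap_eq (fun a => by
    rw [hmap, σ.commutes, ← IsScalarTower.algebraMap_apply])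
  have hcomp : (algebraMap (RatFunc K) F).comp (σ.symm.toRingEquiv : K⟮x⟯ →+* RatFunc K)
      = ((RingEquiv.refl F : F ≃+* F) : F →+* F).comp (algebraMap K⟮x⟯ F) := by
    ext r
    simp [hmap]
  have : FiniteDimensional (RatFunc K) F :=
    Module.Finite.of_equiv_equiv σ.symm.toRingEquiv (RingEquiv.refl F) hcomp
  have : Algebra.IsSeparable (RatFunc K) F :=
    Algebra.IsSeparable.of_equiv_equiv σ.symm.toRingEquiv (RingEquiv.refl F) hcomp
  have hfin : Module.finrank K⟮x⟯ F = Module.finrank (RatFunc K) F :=
    Algebra.finrank_eq_of_equiv_equiv σ.symm.toRingEquiv (RingEquiv.refl F) hcomp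
  have hx : xgen K F = x := by
    show algebraMap K⟮x⟯ F (RatFunc.algEquivOfTranscendental x hxt RatFunc.X) = x
    exact RatFunc.algEquivOfTranscendental_X x hxt
  obtain ⟨δ, hδ⟩ := exists_exponents_place_core K F
  refine ⟨fun i => δ (Fin.cast hfin i), fun c D hD => ?_⟩
  obtain ⟨h1, h2⟩ := hδ c D (by rw [hx]; exact hD)
  refine ⟨h1, ?_⟩
  rw [h2]
  exact (Fintype.sum_equiv (finCongr hfin) _ _ (fun i => rfl)).symm

/-- **Riemann's theorem for the divisors `c · (x)_∞`.**  There are integers `g` and `c₀` with
`dim_K L(c · (x)_∞) = c · [F : K(x)] + 1 - g` for all `c ≥ c₀`. -/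
theorem exists_genus_place (hxt : Transcendental K x) :
    ∃ g c₀ : ℤ, ∀ (c : ℤ), c₀ ≤ c → ∀ D : Divisor K F,
      (∀ v : Place K F, D v = c * max 0 (-(v.ord x))) →
      Module.Finite K (riemannRochSpace D) ∧
        (Module.finrank K (riemannRochSpace D) : ℤ)
          = c * (Module.finrank K⟮x⟯ F : ℤ) + 1 - g := by
  obtain ⟨δ, hδ⟩ := exists_exponents_place (K := K) (F := F) hxt
  refine ⟨1 - (Module.finrank K⟮x⟯ F : ℤ) + ∑ i, δ i, ∑ i, |δ i|, fun c hc D hD => ?_⟩
  obtain ⟨h1, h2⟩ := hδ c D hD
  refine ⟨h1, ?_⟩
  have hb : ∀ i, δ i ≤ c + 1 := by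
    intro i
    have h3 : |δ i| ≤ ∑ j, |δ j| :=
      Finset.single_le_sum (f := fun j => |δ j|) (fun j _ => abs_nonneg _) (Finset.mem_univ i)
    have h4 : δ i ≤ |δ i| := le_abs_self _
    omega
  rw [h2, sum_toNat_eq δ c hb, Fintype.card_fin]
  ring

end Wrapper

end Fermat.Agent.Lib.DedekindWeber
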