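import Mathlib
import Fermat.Prelude.Def_AlgebraicCurve_DivisorClassGroup
import Fermat.Prelude.Def_AlgebraicCurve_Repartitions
import Fermat.Agent.Lib.FFPlaces
import Fermat.Agent.Lib.LocalDiscCount
import Fermat.Agent.Lib.DedekindWeber
import Fermat.Agent.Lib.DedekindWeber.IntegralBasis
import Fermat.Agent.Lib.DedekindWeber.Places

/-!
# Genus by fibre counting (S18 G4-D)

Dedekind–Weber exponents `δ` of a function field `F / K(x)` (`K` algebraically closed) versus the
number of places in the fibres of `x`:
`2 ∑ δ ≥ ∑_{a ∈ S} (n - #{zeros of x - a}) + (n - #{poles of x})` always, with equality in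
characteristic zero when `S` contains all branch values.
-/

set_option autoImplicit false

noncomputable section

namespace Fermat.Agent.Lib.DedekindWeber

open AlgebraicCurve IsDedekindDomain WithZero nonZeroDivisors

section Generic

variable {K F : Type*} [Field K] [Field F] [Algebra K F]

/-- the adic valuation of the place of a height one prime -/
theorem ord_pos_ofHeightOneSpectrum_iff {B : Type*} [CommRing B] [IsDedekindDomain B]
    [Algebra B F] [IsFractionRing B F] [Algebra K B] [IsScalarTower K B F]
    (w : HeightOneSpectrum B) (r : B) (hr : algebraMap B F r ≠ 0) :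
    0 < (Place.ofHeightOneSpectrum (K := K) w).ord (algebraMap B F r) ↔ r ∈ w.asIdeal := by
  rw [FFPlaces.ord_ofHeightOneSpectrum, ← HeightOneSpectrum.valuation_lt_one_iff_mem (K := F)]
  have h0 : w.valuation F (algebraMap B F r) ≠ 0 := (Valuation.ne_zero_iff _).mpr hr
  constructor
  · intro h
    rw [← exp_log h0, ← exp_zero, exp_lt_exp]
    omega
  · intro h
    rw [← exp_log h0, ← exp_zero, exp_lt_exp] at h
    omega

/-- **Dictionary.**  The primes of the integral closure of `R` containing `ϖ` correspond to the
places of `F / K` containing `R` at which `ϖ` vanishes. -/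
theorem card_primes_eq_card_places {R : Type*} [CommRing R] [Algebra R F]
    [IsDedekindDomain (integralClosure R F)] [IsFractionRing (integralClosure R F) F]
    [Algebra K (integralClosure R F)] [IsScalarTower K (integralClosure R F) F]
    (ϖ : R) (hϖ : algebraMap R F ϖ ≠ 0) :
    Nat.card {P : Ideal (integralClosure R F) //
        P.IsPrime ∧ algebraMap R (integralClosure R F) ϖ ∈ P}
      = Nat.card {v : Place K F // (∀ r : R, algebraMap R F r ∈ v.toValuationSubring) ∧
          0 < v.ord (algebraMap R F ϖ)} := by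
  have hϖ' : algebraMap (integralClosure R F) F (algebraMap R (integralClosure R F) ϖ) ≠ 0 := hϖ
  have hmemR : ∀ (w : HeightOneSpectrum (integralClosure R F)) (r : R), algebraMap R F r ∈
      (Place.ofHeightOneSpectrum (K := K) w).toValuationSubring := by
    intro w r
    show algebraMap R F r ∈ (w.valuation F).valuationSubring
    rw [Valuation.mem_valuationSubring_iff]
    have : algebraMap R F r
        = algebraMap (integralClosure R F) F (algebraMap R (integralClosure R F) r) := rfl
    rw [this]
    exact w.valuation_le_one _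
  let f : {P : Ideal (integralClosure R F) //
        P.IsPrime ∧ algebraMap R (integralClosure R F) ϖ ∈ P} →
      {v : Place K F // (∀ r : R, algebraMap R F r ∈ v.toValuationSubring) ∧
          0 < v.ord (algebraMap R F ϖ)} := fun P =>
    ⟨Place.ofHeightOneSpectrum (K := K)
      (⟨P.1, P.2.1, fun h => by
        have := P.2.2
        rw [h, Ideal.mem_bot] at this
        exact hϖ' (by rw [this, map_zero])⟩ : HeightOneSpectrum (integralClosure R F)),
      hmemR _, (ord_pos_ofHeightOneSpectrum_iff (K := K) _ _ hϖ').mpr P.2.2⟩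
  apply Nat.card_congr (Equiv.ofBijective f ⟨?_, ?_⟩)
  · intro P P' h
    have h1 := congrArg (fun v => v.1.toValuationSubring) h
    have h2 := FFPlaces.valuationSubring_injective h1
    exact Subtype.ext (congrArg HeightOneSpectrum.asIdeal h2)
  · rintro ⟨v, hv1, hv2⟩
    have hB : ∀ r : integralClosure R F, algebraMap (integralClosure R F) F r ∈
        v.toValuationSubring := by
      intro r
      obtain ⟨p, hp, hpr⟩ := r.2
      let φ : R →+* v.toValuationSubring :=
        (algebraMap R F).codRestrict v.toValuationSubring.toSubring hv1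
      have hint : IsIntegral v.toValuationSubring (r : F) := by
        refine ⟨p.map φ, hp.map φ, ?_⟩
        rw [Polynomial.eval₂_map]
        exact hpr
      obtain ⟨y, hy⟩ := IsIntegrallyClosed.isIntegral_iff.mp hint
      have : algebraMap (integralClosure R F) F r = (y : F) := hy.symm
      rw [this]
      exact y.2
    obtain ⟨w, hw⟩ := FFPlaces.exists_heightOneSpectrum_of_le (R := integralClosure R F)
      v.toValuationSubring v.ne_top' hB
    have hvw : v = Place.ofHeightOneSpectrum (K := K) w := Place.ext hw
    have hmem : algebraMap R (integralClosure R F) ϖ ∈ w.asIdeal := by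
      rw [← ord_pos_ofHeightOneSpectrum_iff (K := K) w _ hϖ', ← hvw]
      exact hv2
    refine ⟨⟨w.asIdeal, w.isPrime, hmem⟩, ?_⟩
    apply Subtype.ext
    show Place.ofHeightOneSpectrum (K := K) _ = v
    rw [hvw]

end Generic

section IntegralBasis2

variable (A K L : Type*) [CommRing A] [IsDomain A] [Field K] [Algebra A K] [IsFractionRing A K]
  [Field L] [Algebra K L] [Algebra A L] [IsScalarTower A K L]

omit [IsDomain A] in
/-- an `A`-basis of the integral closure, pushed to `L`, detects integrality by coordinates -/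
theorem isIntegral_iff_repr_mem_range {ι : Type*} [Fintype ι]
    [IsLocalization (Algebra.algebraMapSubmonoid (integralClosure A L) A⁰) L]
    (b0 : Module.Basis ι A (integralClosure A L)) (f : L) :
    IsIntegral A f ↔ ∀ i, (Module.Basis.localizationLocalization K A⁰ L b0).repr f i
      ∈ Set.range (algebraMap A K) := by
  set b := Module.Basis.localizationLocalization K A⁰ L b0 with hb
  have hbi : ∀ i, b i = algebraMap (integralClosure A L) L (b0 i) :=
    fun i => Module.Basis.localizationLocalization_apply K A⁰ L b0 i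
  have hbint : ∀ i, IsIntegral A (b i) := by
    intro i
    rw [hbi i]
    exact (b0 i).2
  constructor
  · intro hf i
    have : f = algebraMap (integralClosure A L) L ⟨f, hf⟩ := rfl
    rw [this, hb, Module.Basis.localizationLocalization_repr_algebraMap]
    exact ⟨_, rfl⟩
  · intro h
    choose a ha using h
    have hf : f = ∑ i, a i • b i := by
      conv_lhs => rw [← b.sum_repr f]
      apply Finset.sum_congr rfl
      intro i _
      rw [← ha i, algebraMap_smul]
    rw [hf]
    exact IsIntegral.sum _ (fun i _ => IsIntegral.smul _ (hbint i))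

end IntegralBasis2

section CoreGenus

open Polynomial

variable (K F : Type*) [Field K] [Field F] [Algebra K F] [Algebra (RatFunc K) F] [Algebra K[X] F]
  [IsScalarTower K[X] (RatFunc K) F] [IsScalarTower K (RatFunc K) F]

omit [Algebra K F] [IsScalarTower K (RatFunc K) F] in
theorem algebraMap_poly_injective : Function.Injective (algebraMap K[X] F) := by
  rw [IsScalarTower.algebraMap_eq K[X] (RatFunc K) F]
  exact (algebraMap (RatFunc K) F).injective.comp (IsFractionRing.injective K[X] (RatFunc K))

/-- the Dedekind–Weber space of two bases with the coordinate property is `RRSpace` -/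
theorem LSpace_eq_RRSpace [DecidableEq (RatFunc K)] {ι : Type*} [Fintype ι]
    (w0 e : Module.Basis ι (RatFunc K) F)
    (hw0 : ∀ f : F, IsIntegral K[X] f ↔
      ∀ i, w0.repr f i ∈ Set.range (algebraMap K[X] (RatFunc K)))
    (he : ∀ f : F, IsIntegral (Oinf K) f ↔
      ∀ i, e.repr f i ∈ Set.range (algebraMap (Oinf K) (RatFunc K))) (c : ℤ) :
    LSpace K w0 e c = RRSpace K F c := by
  have he' : ∀ f : F, IsIntegral (Oinf K) f ↔
      ∀ i, RatFunc.inftyValuation K (e.repr f i) ≤ 1 := by
    intro f
    rw [he f]
    apply forall_congr'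
    intro i
    constructor
    · rintro ⟨y, hy⟩
      rw [← hy]
      exact (Valuation.mem_valuationSubring_iff _ _).mp y.2
    · intro h
      exact ⟨⟨_, (Valuation.mem_valuationSubring_iff _ _).mpr h⟩, rfl⟩
  ext f
  rw [mem_RRSpace, mem_LSpace, hw0 f, he' _]
  apply and_congr Iff.rfl
  apply forall_congr'
  intro i
  rw [map_smul, Finsupp.smul_apply, smul_eq_mul, map_mul, RatFunc.inftyValuation.X_zpow]
  constructor
  · intro h
    calc exp (-c) * RatFunc.inftyValuation K (e.repr f i) ≤ exp (-c) * exp c := by gcongr
      _ = 1 := by rw [← exp_add]; simp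
  · intro h
    calc RatFunc.inftyValuation K (e.repr f i)
        = exp c * (exp (-c) * RatFunc.inftyValuation K (e.repr f i)) := by
          rw [← mul_assoc, ← exp_add]; simp
      _ ≤ exp c * 1 := by gcongr
      _ = exp c := mul_one _

variable [FiniteDimensional (RatFunc K) F] [Algebra.IsSeparable (RatFunc K) F]

/-- **Local discriminant at a finite point `x = a`.**  The root multiplicity at `a` of the
discriminant of a `K[X]`-basis of the integral closure is at least `n - #{zeros of x - a}`, with
equality in characteristic zero. -/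
theorem finite_point_bound [IsAlgClosed K] {ι : Type*} [Fintype ι] [DecidableEq ι]
    (bf : Module.Basis ι K[X] (integralClosure K[X] F)) (a : K) :
    Algebra.discr K[X] bf ≠ 0 ∧
    Nat.card {v : Place K F // 0 < v.ord (xgen K F - algebraMap K F a)} ≤ Fintype.card ι ∧
    Fintype.card ι - Nat.card {v : Place K F // 0 < v.ord (xgen K F - algebraMap K F a)}
      ≤ (Algebra.discr K[X] bf).rootMultiplicity a ∧
    (CharZero K → (Algebra.discr K[X] bf).rootMultiplicity a
      = Fintype.card ι - Nat.card {v : Place K F // 0 < v.ord (xgen K F - algebraMap K F a)}) := by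
  have : IsDedekindDomain (integralClosure K[X] F) :=
    integralClosure.isDedekindDomain K[X] (RatFunc K) F
  have : IsFractionRing (integralClosure K[X] F) F :=
    integralClosure.isFractionRing_of_finite_extension (RatFunc K) F
  let _ : Algebra K (integralClosure K[X] F) :=
    ((algebraMap K F).codRestrict (integralClosure K[X] F).toSubring
      (fun a => isIntegral_poly_algebraMap K F a)).toAlgebra
  have : IsScalarTower K (integralClosure K[X] F) F :=
    IsScalarTower.of_algebraMap_eq (fun a => rfl)
  have hloc : IsLocalization (Algebra.algebraMapSubmonoid (integralClosure K[X] F) K[X]⁰) F :=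
    IsIntegralClosure.isLocalization K[X] (RatFunc K) F _
  have hD0 : Algebra.discr K[X] bf ≠ 0 := by
    intro h0
    have h1 := Algebra.discr_localizationLocalization K[X] (K[X]⁰) F bf (Rₘ := RatFunc K)
    rw [h0, map_zero] at h1
    exact Algebra.discr_not_zero_of_basis (RatFunc K) _ h1
  have hϖ : algebraMap K[X] F (X - C a) ≠ 0 := by
    rw [Ne, map_eq_zero_iff _ (algebraMap_poly_injective K F)]
    exact X_sub_C_ne_zero a
  have hval : algebraMap K[X] F (X - C a) = xgen K F - algebraMap K F a := by
    rw [map_sub, algebraMap_poly_X, algebraMap_poly_C]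
  have hcard : Nat.card {P : Ideal (integralClosure K[X] F) //
        P.IsPrime ∧ algebraMap K[X] (integralClosure K[X] F) (X - C a) ∈ P}
      = Nat.card {v : Place K F // 0 < v.ord (xgen K F - algebraMap K F a)} := by
    rw [card_primes_eq_card_places (K := K) (X - C a) hϖ]
    apply Nat.card_congr
    apply Equiv.subtypeEquivRight
    intro v
    rw [hval]
    constructor
    · exact fun h => h.2
    · intro h
      refine ⟨fun r => algebraMap_poly_mem v ?_ r, h⟩
      have hne : xgen K F - algebraMap K F a ≠ 0 := hval ▸ hϖ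
      have h1 := ((FFPlaces.ord_pos_iff v hne).mp h).1
      have h2 := v.toValuationSubring.add_mem _ _ h1 (v.algebraMap_mem' a)
      simpa using h2
  have hirr : Irreducible (X - C a : K[X]) := irreducible_X_sub_C a
  have hk : ∀ r : K[X], ∃ b : K, (X - C a) ∣ r - (C : K →+* K[X]) b :=
    fun r => ⟨r.eval a, X_sub_C_dvd_sub_C_eval⟩
  obtain ⟨h1, h2⟩ := LocalDisc.pow_dvd_discr_of_isAlgClosed (C : K →+* K[X]) hirr hk bf
  rw [hcard] at h1 h2
  refine ⟨hD0, h1, (le_rootMultiplicity_iff hD0).mpr h2, fun hchar => ?_⟩
  obtain ⟨-, t, ht, hdisc⟩ :=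
    LocalDisc.discr_eq_pow_mul_not_dvd_of_isAlgClosed (C : K →+* K[X]) hirr hk bf
  rw [hcard] at hdisc
  apply le_antisymm
  · by_contra hlt
    push Not at hlt
    have h3 := (le_rootMultiplicity_iff hD0).mp (Nat.succ_le_of_lt hlt)
    rw [hdisc, pow_succ] at h3
    exact ht ((mul_dvd_mul_iff_left (pow_ne_zero _ (X_sub_C_ne_zero a))).mp h3)
  · exact (le_rootMultiplicity_iff hD0).mpr h2

end CoreGenus

section Infinity

open Polynomial

variable (K : Type*) [Field K] [DecidableEq (RatFunc K)]

/-- the uniformiser `X⁻¹` of the valuation ring at infinity -/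
def piInf : Oinf K :=
  ⟨(RatFunc.X : RatFunc K)⁻¹, by
    rw [Valuation.mem_valuationSubring_iff, (setup_ratFunc K).val_t, ← exp_zero, exp_le_exp]
    norm_num⟩

theorem coe_piInf : ((piInf K : Oinf K) : RatFunc K) = (RatFunc.X : RatFunc K)⁻¹ := rfl

theorem val_piInf : RatFunc.inftyValuation K ((piInf K : Oinf K) : RatFunc K) = exp (-1 : ℤ) :=
  (setup_ratFunc K).val_t

theorem piInf_dvd_iff (r : Oinf K) :
    piInf K ∣ r ↔ RatFunc.inftyValuation K (r : RatFunc K) < 1 := by
  constructor
  · rintro ⟨s, rfl⟩
    have hs : RatFunc.inftyValuation K (s : RatFunc K) ≤ 1 :=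
      (Valuation.mem_valuationSubring_iff _ _).mp s.2
    have : ((piInf K * s : Oinf K) : RatFunc K) = (piInf K : RatFunc K) * (s : RatFunc K) := rfl
    rw [this, map_mul, val_piInf]
    calc exp (-1 : ℤ) * RatFunc.inftyValuation K (s : RatFunc K) ≤ exp (-1 : ℤ) * 1 := by gcongr
      _ = exp (-1 : ℤ) := mul_one _
      _ < 1 := by rw [← exp_zero, exp_lt_exp]; norm_num
  · intro h
    have h1 : RatFunc.inftyValuation K (r : RatFunc K) ≤ exp (-1 : ℤ) := by
      rw [← exp_zero, lt_exp_iff_le_exp_sub_one] at h
      simpa using h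
    have hmem : (r : RatFunc K) * RatFunc.X ∈ Oinf K := by
      rw [Valuation.mem_valuationSubring_iff, map_mul, RatFunc.inftyValuation.X]
      calc RatFunc.inftyValuation K (r : RatFunc K) * exp (1 : ℤ) ≤ exp (-1 : ℤ) * exp (1 : ℤ) := by
            gcongr
        _ = 1 := by rw [← exp_add]; simp
    refine ⟨⟨_, hmem⟩, Subtype.ext ?_⟩
    show (r : RatFunc K) = (RatFunc.X : RatFunc K)⁻¹ * ((r : RatFunc K) * RatFunc.X)
    rw [mul_comm (r : RatFunc K), ← mul_assoc, inv_mul_cancel₀ RatFunc.X_ne_zero, one_mul]

theorem irreducible_piInf : Irreducible (piInf K) := by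
  rw [irreducible_iff]
  constructor
  · intro hu
    have := val_eq_one_of_isUnit (RatFunc.inftyValuation K) _ hu
    rw [val_piInf, ← exp_zero, exp_inj] at this
    norm_num at this
  · intro a b hab
    have ha : RatFunc.inftyValuation K (a : RatFunc K) ≤ 1 :=
      (Valuation.mem_valuationSubring_iff _ _).mp a.2
    have hb : RatFunc.inftyValuation K (b : RatFunc K) ≤ 1 :=
      (Valuation.mem_valuationSubring_iff _ _).mp b.2
    have hprod : RatFunc.inftyValuation K (a : RatFunc K) * RatFunc.inftyValuation K (b : RatFunc K)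
        = exp (-1 : ℤ) := by
      rw [← map_mul, ← val_piInf K, hab]; rfl
    rcases ha.lt_or_eq with ha' | ha'
    · right
      apply isUnit_of_val_eq_one (RatFunc.inftyValuation K) b
      by_contra hb1
      have hb' : RatFunc.inftyValuation K (b : RatFunc K) < 1 := lt_of_le_of_ne hb hb1
      have h1 : RatFunc.inftyValuation K (a : RatFunc K) ≤ exp (-1 : ℤ) := by
        rw [← exp_zero, lt_exp_iff_le_exp_sub_one] at ha'
        simpa using ha'
      have h2 : RatFunc.inftyValuation K (b : RatFunc K) ≤ exp (-1 : ℤ) := by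
        rw [← exp_zero, lt_exp_iff_le_exp_sub_one] at hb'
        simpa using hb'
      have h3 : exp (-1 : ℤ) ≤ exp (-1 : ℤ) * exp (-1 : ℤ) := by
        calc exp (-1 : ℤ) = RatFunc.inftyValuation K (a : RatFunc K)
              * RatFunc.inftyValuation K (b : RatFunc K) := hprod.symm
          _ ≤ exp (-1 : ℤ) * exp (-1 : ℤ) := mul_le_mul' h1 h2
      rw [← exp_add, exp_le_exp] at h3
      norm_num at h3
    · left
      exact isUnit_of_val_eq_one (RatFunc.inftyValuation K) a ha'

/-- the constants inside the valuation ring at infinity -/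
def constInf : K →+* Oinf K :=
  (algebraMap K (RatFunc K)).codRestrict (Oinf K).toSubring (fun a => by
    show algebraMap K (RatFunc K) a ∈ Oinf K
    rw [Valuation.mem_valuationSubring_iff]
    rcases eq_or_ne a 0 with rfl | ha
    · simp
    · exact (RatFunc.inftyValuation.C K ha).le)

theorem coe_constInf (a : K) : ((constInf K a : Oinf K) : RatFunc K) = algebraMap K (RatFunc K) a :=
  rfl

/-- the residue field of the valuation ring at infinity is `K` -/
theorem exists_const_piInf_dvd (r : Oinf K) : ∃ a : K, piInf K ∣ r - constInf K a := by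
  obtain ⟨c, hc1, hc2⟩ := (setup_ratFunc K).res (r : RatFunc K)
    ((Valuation.mem_valuationSubring_iff _ _).mp r.2)
  obtain ⟨a, ha⟩ : ∃ a : K, c = Polynomial.C a := by
    rcases hc2 with rfl | hu
    · exact ⟨0, by simp⟩
    · obtain ⟨a, -, ha⟩ := Polynomial.isUnit_iff.mp hu
      exact ⟨a, ha.symm⟩
  refine ⟨a, (piInf_dvd_iff K _).mpr ?_⟩
  have : ((r - constInf K a : Oinf K) : RatFunc K)
      = (r : RatFunc K) - algebraMap K[X] (RatFunc K) c := by
    rw [ha, RatFunc.algebraMap_C]
    rfl
  rw [this]
  exact hc1

end Infinity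

section CoreGenus2

open Polynomial

variable (K F : Type*) [Field K] [Field F] [Algebra K F] [Algebra (RatFunc K) F] [Algebra K[X] F]
  [IsScalarTower K[X] (RatFunc K) F] [IsScalarTower K (RatFunc K) F]
  [FiniteDimensional (RatFunc K) F] [Algebra.IsSeparable (RatFunc K) F]

/-- **Local discriminant at infinity.**  The discriminant of an `O_∞`-basis of the integral
closure of `O_∞` has order at least `n - #{poles of x}` at infinity, with equality in
characteristic zero. -/
theorem infinite_point_bound [IsAlgClosed K] [DecidableEq (RatFunc K)] {ι : Type*} [Fintype ι]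
    [DecidableEq ι] (bi : Module.Basis ι (Oinf K) (integralClosure (Oinf K) F)) :
    Nat.card {v : Place K F // v.ord (xgen K F) < 0} ≤ Fintype.card ι ∧
    RatFunc.inftyValuation K ((Algebra.discr (Oinf K) bi : Oinf K) : RatFunc K)
      ≤ exp (-((Fintype.card ι - Nat.card {v : Place K F // v.ord (xgen K F) < 0} : ℕ) : ℤ)) ∧
    (CharZero K → RatFunc.inftyValuation K ((Algebra.discr (Oinf K) bi : Oinf K) : RatFunc K)
      = exp (-((Fintype.card ι - Nat.card {v : Place K F // v.ord (xgen K F) < 0} : ℕ) : ℤ))) := by
  have hpid : IsPrincipalIdealRing (Oinf K) :=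
    isPrincipalIdealRing_valuationSubring (RatFunc.inftyValuation K)
  have : IsDedekindDomain (integralClosure (Oinf K) F) :=
    integralClosure.isDedekindDomain (Oinf K) (RatFunc K) F
  have : IsFractionRing (integralClosure (Oinf K) F) F :=
    integralClosure.isFractionRing_of_finite_extension (RatFunc K) F
  let _ : Algebra K (integralClosure (Oinf K) F) :=
    ((algebraMap K F).codRestrict (integralClosure (Oinf K) F).toSubring
      (fun a => isIntegral_Oinf_algebraMap K F a)).toAlgebra
  have : IsScalarTower K (integralClosure (Oinf K) F) F :=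
    IsScalarTower.of_algebraMap_eq (fun a => rfl)
  have hx0 : xgen K F ≠ 0 := xgen_ne_zero K F
  have hval : algebraMap (Oinf K) F (piInf K) = (xgen K F)⁻¹ := by
    show algebraMap (RatFunc K) F ((RatFunc.X : RatFunc K)⁻¹) = _
    rw [map_inv₀]
    rfl
  have hϖ : algebraMap (Oinf K) F (piInf K) ≠ 0 := by
    rw [hval]
    exact inv_ne_zero hx0
  have hcard : Nat.card {P : Ideal (integralClosure (Oinf K) F) //
        P.IsPrime ∧ algebraMap (Oinf K) (integralClosure (Oinf K) F) (piInf K) ∈ P}
      = Nat.card {v : Place K F // v.ord (xgen K F) < 0} := by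
    rw [card_primes_eq_card_places (K := K) (piInf K) hϖ]
    apply Nat.card_congr
    apply Equiv.subtypeEquivRight
    intro v
    rw [hval, Place.ord_inv, Oinf_le_place_iff, ← FFPlaces.ord_neg_iff v hx0]
    constructor
    · exact fun h => h.1
    · intro h
      exact ⟨h, by omega⟩
  obtain ⟨h1, h2⟩ := LocalDisc.pow_dvd_discr_of_isAlgClosed (constInf K) (irreducible_piInf K)
    (exists_const_piInf_dvd K) bi
  rw [hcard] at h1 h2
  have hpow : ∀ m : ℕ, RatFunc.inftyValuation K (((piInf K) ^ m : Oinf K) : RatFunc K)
      = exp (-(m : ℤ)) := by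
    intro m
    have : (((piInf K) ^ m : Oinf K) : RatFunc K) = ((piInf K : Oinf K) : RatFunc K) ^ m := rfl
    rw [this, map_pow, val_piInf, ← exp_nsmul]
    simp
  refine ⟨h1, ?_, fun hchar => ?_⟩
  · obtain ⟨s, hs⟩ := h2
    have hs1 : RatFunc.inftyValuation K (s : RatFunc K) ≤ 1 :=
      (Valuation.mem_valuationSubring_iff _ _).mp s.2
    rw [hs]
    have : ((piInf K ^ (Fintype.card ι - Nat.card {v : Place K F // v.ord (xgen K F) < 0}) * s
        : Oinf K) : RatFunc K)
        = ((piInf K ^ (Fintype.card ι - Nat.card {v : Place K F // v.ord (xgen K F) < 0})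
            : Oinf K) : RatFunc K) * (s : RatFunc K) := rfl
    rw [this, map_mul, hpow]
    calc _ ≤ exp (-((Fintype.card ι - Nat.card {v : Place K F // v.ord (xgen K F) < 0} : ℕ) : ℤ))
          * 1 := by gcongr
      _ = _ := mul_one _
  · obtain ⟨-, t, ht, hdisc⟩ := LocalDisc.discr_eq_pow_mul_not_dvd_of_isAlgClosed (constInf K)
      (irreducible_piInf K) (exists_const_piInf_dvd K) bi
    rw [hcard] at hdisc
    have ht1 : RatFunc.inftyValuation K (t : RatFunc K) = 1 := by
      have hle : RatFunc.inftyValuation K (t : RatFunc K) ≤ 1 :=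
        (Valuation.mem_valuationSubring_iff _ _).mp t.2
      rcases hle.lt_or_eq with hlt | heq
      · exact absurd ((piInf_dvd_iff K t).mpr hlt) ht
      · exact heq
    rw [hdisc]
    have : ((piInf K ^ (Fintype.card ι - Nat.card {v : Place K F // v.ord (xgen K F) < 0}) * t
        : Oinf K) : RatFunc K)
        = ((piInf K ^ (Fintype.card ι - Nat.card {v : Place K F // v.ord (xgen K F) < 0})
            : Oinf K) : RatFunc K) * (t : RatFunc K) := rfl
    rw [this, map_mul, hpow, ht1, mul_one]

/-- **Dedekind–Weber exponents with local discriminant data (core form).** -/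
theorem exists_exponents_local_data [IsAlgClosed K] :
    ∃ (δ : Fin (Module.finrank (RatFunc K) F) → ℤ) (D0 : K[X]) (m : ℤ), D0 ≠ 0 ∧
      (∀ (c : ℤ) (D : Divisor K F),
        (∀ v : Place K F, D v = c * max 0 (-(v.ord (xgen K F)))) →
        Module.Finite K (riemannRochSpace D) ∧
          Module.finrank K (riemannRochSpace D) = ∑ i, (c - δ i + 1).toNat) ∧
      2 * ∑ i, δ i = (D0.natDegree : ℤ) + m ∧
      (∀ a : K,
        Nat.card {v : Place K F // 0 < v.ord (xgen K F - algebraMap K F a)}
          ≤ Module.finrank (RatFunc K) F ∧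
        Module.finrank (RatFunc K) F
            - Nat.card {v : Place K F // 0 < v.ord (xgen K F - algebraMap K F a)}
          ≤ D0.rootMultiplicity a ∧
        (CharZero K → D0.rootMultiplicity a = Module.finrank (RatFunc K) F
            - Nat.card {v : Place K F // 0 < v.ord (xgen K F - algebraMap K F a)})) ∧
      Nat.card {v : Place K F // v.ord (xgen K F) < 0} ≤ Module.finrank (RatFunc K) F ∧
      ((Module.finrank (RatFunc K) F - Nat.card {v : Place K F // v.ord (xgen K F) < 0} : ℕ) : ℤ)
        ≤ m ∧
      (CharZero K → m = ((Module.finrank (RatFunc K) F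
          - Nat.card {v : Place K F // v.ord (xgen K F) < 0} : ℕ) : ℤ)) := by
  classical
  -- the finite part
  have htf : Module.IsTorsionFree K[X] F := by
    have hinj := algebraMap_poly_injective K F
    rw [← faithfulSMul_iff_algebraMap_injective] at hinj
    infer_instance
  have hfree : Module.Free K[X] (integralClosure K[X] F) :=
    IsIntegralClosure.module_free K[X] (RatFunc K) F _
  have hfinite : Module.Finite K[X] (integralClosure K[X] F) :=
    IsIntegralClosure.finite K[X] (RatFunc K) F _
  have hrank : Module.finrank K[X] (integralClosure K[X] F) = Module.finrank (RatFunc K) F :=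
    IsIntegralClosure.rank K[X] (RatFunc K) F _
  have hlocf : IsLocalization (Algebra.algebraMapSubmonoid (integralClosure K[X] F) K[X]⁰) F :=
    IsIntegralClosure.isLocalization K[X] (RatFunc K) F _
  let bf : Module.Basis (Fin (Module.finrank (RatFunc K) F)) K[X] (integralClosure K[X] F) :=
    Module.finBasisOfFinrankEq K[X] _ hrank
  -- the infinite part
  have hpid : IsPrincipalIdealRing (Oinf K) :=
    isPrincipalIdealRing_valuationSubring (RatFunc.inftyValuation K)
  have hfree' : Module.Free (Oinf K) (integralClosure (Oinf K) F) :=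
    IsIntegralClosure.module_free (Oinf K) (RatFunc K) F _
  have hfinite' : Module.Finite (Oinf K) (integralClosure (Oinf K) F) :=
    IsIntegralClosure.finite (Oinf K) (RatFunc K) F _
  have hrank' : Module.finrank (Oinf K) (integralClosure (Oinf K) F)
      = Module.finrank (RatFunc K) F := IsIntegralClosure.rank (Oinf K) (RatFunc K) F _
  have hloci : IsLocalization
      (Algebra.algebraMapSubmonoid (integralClosure (Oinf K) F) (Oinf K)⁰) F :=
    IsIntegralClosure.isLocalization (Oinf K) (RatFunc K) F _
  let bi : Module.Basis (Fin (Module.finrank (RatFunc K) F)) (Oinf K)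
      (integralClosure (Oinf K) F) := Module.finBasisOfFinrankEq (Oinf K) _ hrank'
  -- the two bases of `F` over `K(X)`
  set w0 := Module.Basis.localizationLocalization (RatFunc K) K[X]⁰ F bf with hw0def
  set e := Module.Basis.localizationLocalization (RatFunc K) (Oinf K)⁰ F bi with hedef
  have hw0 : ∀ f : F, IsIntegral K[X] f ↔
      ∀ i, w0.repr f i ∈ Set.range (algebraMap K[X] (RatFunc K)) :=
    isIntegral_iff_repr_mem_range K[X] (RatFunc K) F bf
  have he : ∀ f : F, IsIntegral (Oinf K) f ↔
      ∀ i, e.repr f i ∈ Set.range (algebraMap (Oinf K) (RatFunc K)) :=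
    isIntegral_iff_repr_mem_range (Oinf K) (RatFunc K) F bi
  have hdisc0 : Algebra.discr (RatFunc K) w0
      = algebraMap K[X] (RatFunc K) (Algebra.discr K[X] bf) :=
    Algebra.discr_localizationLocalization K[X] (K[X]⁰) F bf
  have hdisce : Algebra.discr (RatFunc K) e
      = algebraMap (Oinf K) (RatFunc K) (Algebra.discr (Oinf K) bi) :=
    Algebra.discr_localizationLocalization (Oinf K) ((Oinf K)⁰) F bi
  have hfb := finite_point_bound K F bf
  have hD0 : Algebra.discr K[X] bf ≠ 0 := (hfb 0).1
  obtain ⟨δ, h1, h2⟩ := exists_exponents_discr K w0 e (Algebra.discr K[X] bf) hD0 hdisc0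
  have hdne : RatFunc.inftyValuation K (Algebra.discr (RatFunc K) e) ≠ 0 := by
    rw [Valuation.ne_zero_iff]
    exact Algebra.discr_not_zero_of_basis (RatFunc K) e
  obtain ⟨hi1, hi2, hi3⟩ := infinite_point_bound K F bi
  rw [Fintype.card_fin] at hi1
  have hcoe : algebraMap (Oinf K) (RatFunc K) (Algebra.discr (Oinf K) bi)
      = ((Algebra.discr (Oinf K) bi : Oinf K) : RatFunc K) := rfl
  rw [← hcoe, ← hdisce] at hi2 hi3
  set m : ℤ := -log (RatFunc.inftyValuation K (Algebra.discr (RatFunc K) e)) with hm
  have hvm : RatFunc.inftyValuation K (Algebra.discr (RatFunc K) e) = exp (-m) := by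
    rw [hm, neg_neg, exp_log hdne]
  refine ⟨δ, Algebra.discr K[X] bf, m, hD0, ?_, ?_, ?_, hi1, ?_, ?_⟩
  · intro c D hD
    rw [riemannRochSpace_eq_RRSpace c D hD, ← LSpace_eq_RRSpace K F w0 e hw0 he c]
    exact h1 c
  · rw [hvm, ← exp_add, exp_inj] at h2
    omega
  · intro a
    have := hfb a
    simp only [Fintype.card_fin] at this
    exact this.2
  · rw [hvm, exp_le_exp] at hi2
    simp only [Fintype.card_fin] at hi2
    omega
  · intro hchar
    have := hi3 hchar
    rw [hvm, exp_inj] at this
    simp only [Fintype.card_fin] at this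
    omega

omit [Algebra K F] [Algebra (RatFunc K) F] [Algebra K[X] F] [IsScalarTower K[X] (RatFunc K) F]
  [IsScalarTower K (RatFunc K) F] [FiniteDimensional (RatFunc K) F]
  [Algebra.IsSeparable (RatFunc K) F] [Field F] in
theorem sum_rootMultiplicity_le (D0 : K[X]) (S : Finset K) :
    ∑ a ∈ S, D0.rootMultiplicity a ≤ D0.natDegree := by
  classical
  have h1 : ∑ a ∈ S, D0.rootMultiplicity a = (D0.roots.filter (· ∈ S)).card := by
    rw [← Multiset.sum_count_eq_card (s := S) (m := D0.roots.filter (· ∈ S))
      (fun a ha => (Multiset.mem_filter.mp ha).2)]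
    apply Finset.sum_congr rfl
    intro a ha
    rw [Multiset.count_filter_of_pos ha, Polynomial.count_roots]
  rw [h1]
  exact (Multiset.card_le_card (Multiset.filter_le _ _)).trans (Polynomial.card_roots' D0)

omit [Algebra K F] [Algebra (RatFunc K) F] [Algebra K[X] F] [IsScalarTower K[X] (RatFunc K) F]
  [IsScalarTower K (RatFunc K) F] [FiniteDimensional (RatFunc K) F]
  [Algebra.IsSeparable (RatFunc K) F] [Field F] in
theorem sum_rootMultiplicity_eq [IsAlgClosed K] (D0 : K[X]) (S : Finset K)
    (hS : ∀ a, a ∉ S → D0.rootMultiplicity a = 0) :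
    ∑ a ∈ S, D0.rootMultiplicity a = D0.natDegree := by
  classical
  rw [← Polynomial.splits_iff_card_roots.mp (IsAlgClosed.splits D0),
    ← Multiset.sum_count_eq_card (s := S)]
  · apply Finset.sum_congr rfl
    intro a _
    rw [Polynomial.count_roots]
  · intro a ha
    by_contra hnot
    have h0 := hS a hnot
    rw [← Polynomial.count_roots] at h0
    exact (Multiset.count_pos.mpr ha).ne' h0

/-- **Genus bound by fibre counting (core form, any characteristic).** -/
theorem exists_exponents_genus_le_core [IsAlgClosed K] :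
    ∃ δ : Fin (Module.finrank (RatFunc K) F) → ℤ,
      (∀ (c : ℤ) (D : Divisor K F),
        (∀ v : Place K F, D v = c * max 0 (-(v.ord (xgen K F)))) →
        Module.Finite K (riemannRochSpace D) ∧
          Module.finrank K (riemannRochSpace D) = ∑ i, (c - δ i + 1).toNat) ∧
      ∀ S : Finset K,
        ∑ a ∈ S, ((Module.finrank (RatFunc K) F : ℤ)
            - Nat.card {v : Place K F // 0 < v.ord (xgen K F - algebraMap K F a)})
          + ((Module.finrank (RatFunc K) F : ℤ)
            - Nat.card {v : Place K F // v.ord (xgen K F) < 0}) ≤ 2 * ∑ i, δ i := by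
  obtain ⟨δ, D0, m, hD0, hdim, h2, hfin, hinf1, hinf2, -⟩ := exists_exponents_local_data K F
  refine ⟨δ, hdim, fun S => ?_⟩
  rw [h2]
  have h3 : ∑ a ∈ S, ((Module.finrank (RatFunc K) F : ℤ)
      - Nat.card {v : Place K F // 0 < v.ord (xgen K F - algebraMap K F a)})
      ≤ ((∑ a ∈ S, D0.rootMultiplicity a : ℕ) : ℤ) := by
    rw [Nat.cast_sum]
    apply Finset.sum_le_sum
    intro a _
    obtain ⟨ha1, ha2, -⟩ := hfin a
    omega
  have h4 : ((∑ a ∈ S, D0.rootMultiplicity a : ℕ) : ℤ) ≤ (D0.natDegree : ℤ) := by
    exact_mod_cast sum_rootMultiplicity_le K D0 S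
  have h5 : (Module.finrank (RatFunc K) F : ℤ)
      - Nat.card {v : Place K F // v.ord (xgen K F) < 0} ≤ m := by omega
  linarith

/-- **Genus formula by fibre counting (core form, characteristic zero).** -/
theorem exists_exponents_genus_eq_core [IsAlgClosed K] [CharZero K] :
    ∃ δ : Fin (Module.finrank (RatFunc K) F) → ℤ,
      (∀ (c : ℤ) (D : Divisor K F),
        (∀ v : Place K F, D v = c * max 0 (-(v.ord (xgen K F)))) →
        Module.Finite K (riemannRochSpace D) ∧
          Module.finrank K (riemannRochSpace D) = ∑ i, (c - δ i + 1).toNat) ∧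
      ∀ S : Finset K,
        (∀ a, a ∉ S → Nat.card {v : Place K F // 0 < v.ord (xgen K F - algebraMap K F a)}
          = Module.finrank (RatFunc K) F) →
        2 * ∑ i, δ i = ∑ a ∈ S, ((Module.finrank (RatFunc K) F : ℤ)
            - Nat.card {v : Place K F // 0 < v.ord (xgen K F - algebraMap K F a)})
          + ((Module.finrank (RatFunc K) F : ℤ)
            - Nat.card {v : Place K F // v.ord (xgen K F) < 0}) := by
  obtain ⟨δ, D0, m, hD0, hdim, h2, hfin, hinf1, hinf2, hinf3⟩ := exists_exponents_local_data K F
  refine ⟨δ, hdim, fun S hS => ?_⟩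
  have hchar : CharZero K := inferInstance
  rw [h2, hinf3 hchar]
  have h3 : ∑ a ∈ S, ((Module.finrank (RatFunc K) F : ℤ)
      - Nat.card {v : Place K F // 0 < v.ord (xgen K F - algebraMap K F a)})
      = ((∑ a ∈ S, D0.rootMultiplicity a : ℕ) : ℤ) := by
    rw [Nat.cast_sum]
    apply Finset.sum_congr rfl
    intro a _
    obtain ⟨ha1, -, ha3⟩ := hfin a
    have := ha3 hchar
    omega
  have h4 : ∑ a ∈ S, D0.rootMultiplicity a = D0.natDegree := by
    apply sum_rootMultiplicity_eq K D0 S
    intro a ha
    obtain ⟨-, -, ha3⟩ := hfin a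
    rw [ha3 hchar, hS a ha, Nat.sub_self]
  rw [h3, h4]
  omega

end CoreGenus2

section Wrapper

open IntermediateField Polynomial

variable {K F : Type*} [Field K] [Field F] [Algebra K F] {x : F}
  [FiniteDimensional K⟮x⟯ F] [Algebra.IsSeparable K⟮x⟯ F]

/-- **Transfer principle.**  A statement about the degree `[F : K(x)]` and the element `x` can be
proved after making `F` an algebra over `RatFunc K` with `X ↦ x`. -/
theorem ratFunc_induction (hxt : Transcendental K x) {P : ℕ → F → Prop}
    (h : ∀ [Algebra (RatFunc K) F] [Algebra K[X] F] [IsScalarTower K[X] (RatFunc K) F]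
      [IsScalarTower K (RatFunc K) F] [FiniteDimensional (RatFunc K) F]
      [Algebra.IsSeparable (RatFunc K) F], P (Module.finrank (RatFunc K) F) (xgen K F)) :
    P (Module.finrank K⟮x⟯ F) x := by
  let σ : RatFunc K ≃ₐ[K] K⟮x⟯ := RatFunc.algEquivOfTranscendental x hxt
  let _ : Algebra (RatFunc K) F :=
    ((algebraMap K⟮x⟯ F).comp (σ : RatFunc K →+* K⟮x⟯)).toAlgebra
  let _ : Algebra K[X] F := (Polynomial.aeval x : K[X] →ₐ[K] F).toRingHom.toAlgebra
  have hmap : ∀ r : RatFunc K, algebraMap (RatFunc K) F r = algebraMap K⟮x⟯ F (σ r) :=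
    fun r => rfl
  have hpoly : ∀ p : K[X], algebraMap K[X] F p = Polynomial.aeval x p := fun p => rfl
  have : IsScalarTower K[X] (RatFunc K) F := IsScalarTower.of_algebraMap_eq (fun p => by
    rw [hmap, hpoly]
    change _ = algebraMap K⟮x⟯ F
      (RatFunc.algEquivOfTranscendental x hxt (algebraMap K[X] (RatFunc K) p))
    rw [RatFunc.algEquivOfTranscendental_algebraMap, ← Polynomial.aeval_algebraMap_apply,
      AdjoinSimple.algebraMap_gen])
  have : IsScalarTower K (RatFunc K) F := IsScalarTower.of_algebraMap_eq (fun a => by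
    rw [hmap, σ.commutes, ← IsScalarTower.algebraMap_apply])
  have hcomp : (algebraMap (RatFunc K) F).comp (σ.symm.toRingEquiv : K⟮x⟯ →+* RatFunc K)
      = ((RingEquiv.refl F : F ≃+* F) : F →+* F).comp (algebraMap K⟮x⟯ F) := by
    ext r
    simp [hmap]
  have : FiniteDimensional (RatFunc K) F :=
    Module.Finite.of_equiv_equiv σ.symm.toRingEquiv (RingEquiv.refl F) hcomp
  have : Algebra.IsSeparable (RatFunc K) F :=
    Algebra.IsSeparable.of_equiv_equiv σ.symm.toRingEquiv (RingEquiv.refl F) hcomp
  have hfin : Module.finrank K⟮x⟯ F = Module.finrank (RatFunc K) F :=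
    Algebra.finrank_eq_of_equiv_equiv σ.symm.toRingEquiv (RingEquiv.refl F) hcomp
  have hx : xgen K F = x := by
    show algebraMap K⟮x⟯ F (RatFunc.algEquivOfTranscendental x hxt RatFunc.X) = x
    exact RatFunc.algEquivOfTranscendental_X x hxt
  have key : P (Module.finrank (RatFunc K) F) (xgen K F) := h
  rw [hx, ← hfin] at key
  exact key

/-- **Genus bound by fibre counting (any characteristic).**  `K` algebraically closed, `x`
transcendental, `F / K(x)` finite separable of degree `n`.  The Dedekind–Weber exponents `δ`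
(with `dim L(c·(x)_∞) = ∑ max (0, c - δ i + 1)`, so that the genus is `1 - n + ∑ δ`) satisfy
`∑_{a ∈ S} (n - #{zeros of x - a}) + (n - #{poles of x}) ≤ 2 ∑ δ` for every finite `S ⊆ K`. -/
theorem exists_exponents_genus_le (hxt : Transcendental K x) [IsAlgClosed K] :
    ∃ δ : Fin (Module.finrank K⟮x⟯ F) → ℤ,
      (∀ (c : ℤ) (D : Divisor K F),
        (∀ v : Place K F, D v = c * max 0 (-(v.ord x))) →
        Module.Finite K (riemannRochSpace D) ∧
          Module.finrank K (riemannRochSpace D) = ∑ i, (c - δ i + 1).toNat) ∧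
      ∀ S : Finset K,
        ∑ a ∈ S, ((Module.finrank K⟮x⟯ F : ℤ)
            - Nat.card {v : Place K F // 0 < v.ord (x - algebraMap K F a)})
          + ((Module.finrank K⟮x⟯ F : ℤ)
            - Nat.card {v : Place K F // v.ord x < 0}) ≤ 2 * ∑ i, δ i :=
  ratFunc_induction hxt (P := fun n y => ∃ δ : Fin n → ℤ,
      (∀ (c : ℤ) (D : Divisor K F),
        (∀ v : Place K F, D v = c * max 0 (-(v.ord y))) →
        Module.Finite K (riemannRochSpace D) ∧
          Module.finrank K (riemannRochSpace D) = ∑ i, (c - δ i + 1).toNat) ∧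
      ∀ S : Finset K,
        ∑ a ∈ S, ((n : ℤ) - Nat.card {v : Place K F // 0 < v.ord (y - algebraMap K F a)})
          + ((n : ℤ) - Nat.card {v : Place K F // v.ord y < 0}) ≤ 2 * ∑ i, δ i)
    (exists_exponents_genus_le_core K F)

/-- **Genus formula by fibre counting (characteristic zero).**  If moreover `K` has characteristic
zero and `x` is unramified over every `a ∉ S`, then
`2 ∑ δ = ∑_{a ∈ S} (n - #{zeros of x - a}) + (n - #{poles of x})`. -/
theorem exists_exponents_genus_eq (hxt : Transcendental K x) [IsAlgClosed K] [CharZero K] :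
    ∃ δ : Fin (Module.finrank K⟮x⟯ F) → ℤ,
      (∀ (c : ℤ) (D : Divisor K F),
        (∀ v : Place K F, D v = c * max 0 (-(v.ord x))) →
        Module.Finite K (riemannRochSpace D) ∧
          Module.finrank K (riemannRochSpace D) = ∑ i, (c - δ i + 1).toNat) ∧
      ∀ S : Finset K,
        (∀ a, a ∉ S → Nat.card {v : Place K F // 0 < v.ord (x - algebraMap K F a)}
          = Module.finrank K⟮x⟯ F) →
        2 * ∑ i, δ i = ∑ a ∈ S, ((Module.finrank K⟮x⟯ F : ℤ)
            - Nat.card {v : Place K F // 0 < v.ord (x - algebraMap K F a)})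
          + ((Module.finrank K⟮x⟯ F : ℤ)
            - Nat.card {v : Place K F // v.ord x < 0}) :=
  ratFunc_induction hxt (P := fun n y => ∃ δ : Fin n → ℤ,
      (∀ (c : ℤ) (D : Divisor K F),
        (∀ v : Place K F, D v = c * max 0 (-(v.ord y))) →
        Module.Finite K (riemannRochSpace D) ∧
          Module.finrank K (riemannRochSpace D) = ∑ i, (c - δ i + 1).toNat) ∧
      ∀ S : Finset K,
        (∀ a, a ∉ S → Nat.card {v : Place K F // 0 < v.ord (y - algebraMap K F a)} = n) →
        2 * ∑ i, δ i = ∑ a ∈ S, ((n : ℤ)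
            - Nat.card {v : Place K F // 0 < v.ord (y - algebraMap K F a)})
          + ((n : ℤ) - Nat.card {v : Place K F // v.ord y < 0}))
    (exists_exponents_genus_eq_core K F)

end Wrapper

end Fermat.Agent.Lib.DedekindWeber
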